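import Fermat.Agent.DIV.Geo.Defs

set_option autoImplicit false

/-!
# DIV task DV11-GeoAlg : `y` and `∂Φ/∂Y (x,y)` are algebraic over `E(x)`, `E = cl T`

`F` is an algebra over the field `cl T` (instance `IntermediateField.instAlgebraSubtypeMem`), `IsScalarTower (cl T) Ω F`.
* `aevalAeval_mem_Mx`: if the coefficients of `Ψ : Polynomial (Polynomial Ω)` lie in `cl T` and `y ∈ Mx (cl T) x` then `Ψ(x,y) ∈ Mx (cl T) x`: `Mx` is an intermediate field of `F / cl T` containing `x`, `y` and `algebraMap Ω F c` for `c ∈ cl T` (`= algebraMap (cl T) F ⟨c, _⟩`);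
  expand `aevalAeval x y Ψ = ∑ i, (∑ j, algebraMap (coeff) * x ^ j) * y ^ i` (`Polynomial.aevalAeval`/`Polynomial.coe_aevalAeval_eq_evalEval`/`Polynomial.evalEval`, `Polynomial.eval₂_eq_sum_range`, `Polynomial.aeval_eq_sum_range`), `sum_mem`, `mul_mem`, `pow_mem`.
* `y_mem_Mx`: the polynomial `q := ∑ i, C ⟨(Φ.coeff i)(x), _⟩ * X ^ i` over the field `adjoin (cl T) {x}` kills `y` (`𝔤.root`) and is not `0`, because its derivative does not kill `y` (`𝔤.sep`).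
  [(Φ.coeff i)(x) = aeval x (Φ.coeff i) ∈ adjoin (cl T) {x} since the coefficients lie in `cl ∅ ≤ cl T` (`cl_mono (Set.empty_subset T)`).]
  A convenient way: lift `Φ` to `Φ' : (cl T)[X][Y]` with `Φ'.map (mapRingHom (algebraMap (cl T) Ω)) = Φ` (`Polynomial.lifts`, `Polynomial.mem_lifts`/`lifts_iff_coeff_lifts`), then everything is `aevalAeval x y Φ'` over the base field `cl T`.
* `transcendental_iff`: `mem_cl_of_isAlgebraic`; conversely an element of `cl T` is a root of `X - C _`.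
-/

namespace Fermat.Agent.DIV

open AlgebraicCurve Fermat.Agent.S24 Polynomial IntermediateField
open scoped Polynomial.Bivariate

variable {Ω F : Type*} [Field Ω] [Algebra ℚ Ω] [Field F] [Algebra Ω F]

theorem transcendental_iff {T : Set Ω} {a : Ω} : Transcendental (cl T) a ↔ a ∉ cl T := by
  constructor
  · intro h ha
    exact h (isAlgebraic_algebraMap (⟨a, ha⟩ : cl T))
  · intro h halg
    exact h (mem_cl_of_isAlgebraic halg)

theorem geoAlg_aevalAeval_eq (x y : F) (Ψ : Polynomial (Polynomial Ω)) :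
    aevalAeval x y Ψ = (Ψ.map ((aeval x : Polynomial Ω →ₐ[Ω] F) : Polynomial Ω →+* F)).eval y := by
  induction Ψ using Polynomial.induction_on with
  | C a => rw [aevalAeval_C, map_C, eval_C]; rfl
  | add p q hp hq => rw [map_add, hp, hq, Polynomial.map_add, eval_add]
  | monomial n a _ =>
    rw [map_mul, aevalAeval_C, map_pow, aevalAeval_Y, Polynomial.map_mul, Polynomial.map_pow,
      map_C, map_X, eval_mul, eval_C, eval_pow, eval_X]
    rfl

/-- polynomials in `x` with coefficients in `cl T`. -/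
theorem geoAlg_aeval_mem {T : Set Ω} (L : IntermediateField (cl T) F) {x : F} (hx : x ∈ L)
    (p : Polynomial Ω) (hp : ∀ j, p.coeff j ∈ cl T) : aeval x p ∈ L := by
  rw [aeval_eq_sum_range]
  refine sum_mem fun j _ => ?_
  rw [Algebra.smul_def]
  refine mul_mem ?_ (pow_mem hx j)
  exact L.algebraMap_mem (⟨p.coeff j, hp j⟩ : cl T)

theorem aevalAeval_mem_Mx {T : Set Ω} {x y : F} (hy : y ∈ Mx (cl T) x)
    (Ψ : Polynomial (Polynomial Ω))
    (hΨ : ∀ i j, (Ψ.coeff i).coeff j ∈ cl T) : aevalAeval x y Ψ ∈ Mx (cl T) x := by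
  rw [geoAlg_aevalAeval_eq, eval_eq_sum_range]
  refine sum_mem fun i _ => ?_
  rw [coeff_map]
  exact mul_mem (geoAlg_aeval_mem _ (self_mem_Mx x) _ (hΨ i)) (pow_mem hy i)

theorem geoAlg_coeff_mem (𝔤 : Geo Ω F) (T : Set Ω) (i j : ℕ) : (𝔤.Φ.coeff i).coeff j ∈ cl T :=
  cl_mono (Set.empty_subset T) (𝔤.coeff_mem i j)

theorem geoAlg_coeff_derivative_mem (𝔤 : Geo Ω F) (T : Set Ω) (i j : ℕ) :
    ((derivative 𝔤.Φ).coeff i).coeff j ∈ cl T := by
  rw [coeff_derivative]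
  have : ((i : Polynomial Ω) + 1) = C ((i : Ω) + 1) := by simp
  rw [this, coeff_mul_C]
  exact mul_mem (geoAlg_coeff_mem 𝔤 T _ _) (add_mem (_root_.natCast_mem _ i) (one_mem _))

theorem Geo.y_mem_Mx (𝔤 : Geo Ω F) (T : Set Ω) : 𝔤.y ∈ Mx (cl T) 𝔤.x := by
  rw [mem_Mx]
  set φ : Polynomial Ω →+* F := ((aeval 𝔤.x : Polynomial Ω →ₐ[Ω] F) : Polynomial Ω →+* F) with hφ
  have hl : 𝔤.Φ.map φ ∈ lifts (algebraMap (adjoin (cl T) {𝔤.x}) F) := by
    rw [lifts_iff_coeff_lifts]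
    intro n
    rw [coeff_map]
    exact ⟨⟨_, geoAlg_aeval_mem (adjoin (cl T) {𝔤.x}) (mem_adjoin_simple_self _ _) _
      (geoAlg_coeff_mem 𝔤 T n)⟩, rfl⟩
  obtain ⟨q, hq⟩ := (mem_lifts _).1 hl
  refine ⟨q, ?_, ?_⟩
  · rintro rfl
    rw [Polynomial.map_zero] at hq
    apply 𝔤.sep
    rw [geoAlg_aevalAeval_eq, ← hφ, ← derivative_map, ← hq, derivative_zero, eval_zero]
  · rw [aeval_def, ← eval_map, hq, hφ, ← geoAlg_aevalAeval_eq, 𝔤.root]

theorem Geo.sep_mem_Mx (𝔤 : Geo Ω F) (T : Set Ω) :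
    aevalAeval 𝔤.x 𝔤.y (derivative 𝔤.Φ) ∈ Mx (cl T) 𝔤.x :=
  aevalAeval_mem_Mx (𝔤.y_mem_Mx T) _ (geoAlg_coeff_derivative_mem 𝔤 T)

/-- a root `b` of `Φ(a, Y)` with `∂Φ/∂Y (a, b) ≠ 0`, `a ∈ cl T`, lies in `cl T`. -/
theorem Geo.mem_cl_of_root (𝔤 : Geo Ω F) {T : Set Ω} {a b : Ω} (ha : a ∈ cl T)
    (hroot : 𝔤.Φ.evalEval a b = 0) (hsep : (derivative 𝔤.Φ).evalEval a b ≠ 0) : b ∈ cl T := by
  apply mem_cl_of_isAlgebraic
  have hl : 𝔤.Φ.map (evalRingHom a) ∈ lifts (algebraMap (cl T) Ω) := by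
    rw [lifts_iff_coeff_lifts]
    intro n
    rw [coeff_map, coe_evalRingHom, eval_eq_sum_range]
    have hmem : ∑ j ∈ Finset.range ((𝔤.Φ.coeff n).natDegree + 1), (𝔤.Φ.coeff n).coeff j * a ^ j
        ∈ cl T := sum_mem fun j _ => mul_mem (geoAlg_coeff_mem 𝔤 T n j) (pow_mem ha j)
    exact ⟨⟨_, hmem⟩, rfl⟩
  obtain ⟨q, hq⟩ := (mem_lifts _).1 hl
  refine ⟨q, ?_, ?_⟩
  · rintro rfl
    rw [Polynomial.map_zero] at hq
    apply hsep
    rw [← map_evalRingHom_eval, ← derivative_map, ← hq, derivative_zero, eval_zero]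
  · rw [aeval_def, ← eval_map, hq, map_evalRingHom_eval, hroot]

end Fermat.Agent.DIV
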