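import Fermat.Agent.DIV.Abstract
import Fermat.Agent.DIV.Smooth
import Fermat.Agent.DIV.Triv
import Fermat.Agent.RL.Equivariant
import Fermat.Agent.RL.AddPoints

set_option autoImplicit false

/-!
# DIV: the geometric situation (abstract)

`F / Ω` a function field with a semilinear action of `Aut (Ω / ℚ)`, generated by two functions `x`, `y`; `x` is fixed by the action, `y` by the automorphisms which fix the algebraic numbers;
`Φ(x, y) = 0`, `∂Φ/∂Y (x, y) ≠ 0`, the coefficients of `Φ` are algebraic numbers; `o` is an invariant pole of `x`.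
(Application: `Ω = ℂ`, `F` = the function field of `X₀(N)` over `ℂ`, `x = j`, `y` a primitive element of the function field over `ℚ̄`, `o = ∞`.)
-/

namespace Fermat.Agent.DIV

open AlgebraicCurve Fermat.Agent.S24 Polynomial IntermediateField
open scoped Polynomial.Bivariate

structure Geo (Ω F : Type*) [Field Ω] [Algebra ℚ Ω] [Field F] [Algebra Ω F] where
  act : (Ω ≃ₐ[ℚ] Ω) →* SemilinearAut Ω F
  baseAut_act : ∀ σ a, SemilinearAut.baseAut (act σ) a = σ a
  x : F
  y : F
  Φ : Polynomial (Polynomial Ω)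
  act_x : ∀ σ, act σ • x = x
  act_y : ∀ σ ∈ fixer (∅ : Set Ω), act σ • y = y
  top : IntermediateField.adjoin Ω {x, y} = ⊤
  coeff_mem : ∀ i j, (Φ.coeff i).coeff j ∈ cl (∅ : Set Ω)
  root : aevalAeval x y Φ = 0
  sep : aevalAeval x y (derivative Φ) ≠ 0
  o : Place Ω F
  act_o : ∀ σ, act σ • o = o
  ord_o : o.ord x < 0

variable {Ω F : Type*} [Field Ω] [Algebra ℚ Ω] [Field F] [Algebra Ω F] [IsAlgClosed Ω]

/-- `P` is generic over `cl T`: `x` is regular at `P` and its value is not in `cl T`. -/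
def Geo.IsGen (𝔤 : Geo Ω F) (h : IsFF1 Ω F) (T : Set Ω) (P : Place Ω F) : Prop :=
  𝔤.x ∈ P.toValuationSubring ∧ valAt h P 𝔤.x ∉ cl T

end Fermat.Agent.DIV
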