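import Fermat.Agent.DIV.Geo.Tuple

set_option autoImplicit false

/-!
# DIV task DV14-Generic : a sum of at most `g` independent generic points carries no non constant function

`P : Fin n → Place`, the values `t i` of `x` are algebraically independent over `ℚ`, `n ≤ g = RL.genusR h`.  Then `L(∑ P i) = Ω`.

PROOF.  Show by induction on `k ≤ n` that `D k := ∑ i with (i : ℕ) < k, pt (P i)` (`Finset.univ.filter`) satisfies `RL.OnlyConst`.   `k = 0`: `RL.onlyConst_zero`.
Step `k < n`: `D k` is effective, `OnlyConst`, of degree `k < g` (`RL.degree_pt`, the `P i` need not even be distinct for this), so the set `B` of the places `v` with `¬ OnlyConst (D k + pt v)` is finite (`RL.finite_not_onlyConst_add_pt`).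
Let `T = t '' {i | i < k}`.  Every `σ ∈ fixer T` fixes `P i` for `i < k` (`𝔤.fixed`, `subset_cl`, `not_mem_cl_empty_of_algebraicIndependent`), so `act σ • D k = D k` (`SemilinearAut.smul_single`, `Finset.smul_sum`) and `B` is stable under `act σ`
(`RL.onlyConst_smul_iff`, `smul_add`).  If `P k ∈ B` then `{act σ • P k | σ ∈ fixer T} ⊆ B` is finite, so its image `{σ (t k) | σ ∈ fixer T}` under `v ↦ valAt h v x` (`𝔤.valAt_act_x`) is finite; this is the orbit of `t k`, so `t k ∈ cl T` by `hΩ.orbit`,
contradicting `not_mem_cl_of_algebraicIndependent ht k`.  So `D (k+1) = D k + pt (P k)` is `OnlyConst`.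
-/

namespace Fermat.Agent.DIV

open AlgebraicCurve Fermat.Agent.S24 Polynomial IntermediateField Fermat.Agent.RL

variable {Ω F : Type*} [Field Ω] [Algebra ℚ Ω] [Field F] [Algebra Ω F] [IsAlgClosed Ω]
  [CharZero Ω] (𝔤 : Geo Ω F) (h : IsFF1 Ω F)

theorem Geo.onlyConst_sum (hΩ : Rich Ω) {n : ℕ} (hn : n ≤ genusR h) (P : Fin n → Place Ω F)
    (t : Fin n → Ω) (hP : ∀ i, valOpt h (P i) 𝔤.x = some (t i))
    (ht : AlgebraicIndependent ℚ t) : OnlyConst (∑ i, pt (P i)) := by
  classical
  have hv : ∀ i, valAt h (P i) 𝔤.x = t i := fun i => ((valOpt_eq_some_iff h _).1 (hP i)).2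
  set D : ℕ → Divisor Ω F := fun k => ∑ i : Fin n, if (i : ℕ) < k then pt (P i) else 0 with hD
  have hsucc : ∀ (k : ℕ) (hk : k < n), D (k + 1) = D k + pt (P ⟨k, hk⟩) := by
    intro k hk
    have h1 : pt (P ⟨k, hk⟩) = ∑ i : Fin n, if i = ⟨k, hk⟩ then pt (P i) else 0 := by
      rw [Finset.sum_ite_eq' Finset.univ (⟨k, hk⟩ : Fin n) fun i => pt (P i),
        if_pos (Finset.mem_univ _)]
    rw [h1, hD]
    simp only
    rw [← Finset.sum_add_distrib]
    refine Finset.sum_congr rfl fun i _ => ?_
    by_cases h2 : (i : ℕ) < k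
    · have h3 : i ≠ ⟨k, hk⟩ := fun h0 => by rw [h0] at h2; exact lt_irrefl _ h2
      rw [if_pos h2, if_pos (by omega), if_neg h3, add_zero]
    · by_cases h3 : i = ⟨k, hk⟩
      · rw [if_neg h2, if_pos h3, if_pos (by rw [h3]; exact Nat.lt_succ_self k), zero_add]
      · have h4 : ¬ (i : ℕ) < k + 1 := by
          intro h5
          apply h3
          apply Fin.ext
          show (i : ℕ) = k
          omega
        rw [if_neg h2, if_neg h3, if_neg h4, add_zero]
  have key : ∀ k : ℕ, k ≤ n → OnlyConst (D k) ∧ Eff (D k) ∧ Divisor.degree (D k) = k := by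
    intro k
    induction k with
    | zero =>
      intro _
      have h0 : D 0 = 0 := by
        rw [hD]
        exact Finset.sum_eq_zero fun i _ => if_neg (Nat.not_lt_zero _)
      rw [h0]
      exact ⟨onlyConst_zero h, fun v => le_rfl, by simp⟩
    | succ k ih =>
      intro hk
      have hkn : k < n := by omega
      obtain ⟨hc, he, hd⟩ := ih (by omega)
      set kk : Fin n := ⟨k, hkn⟩ with hkk
      set T : Set Ω := t '' {i | i < kk} with hT
      rw [hsucc k hkn]
      refine ⟨?_, ?_, ?_⟩
      · by_contra hbad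
        have hfin := finite_not_onlyConst_add_pt h he hc (by rw [hd]; exact_mod_cast (by omega))
        have hfix : ∀ σ ∈ fixer T, 𝔤.act σ • D k = D k := by
          intro σ hσ
          rw [hD]
          simp only
          rw [Finset.smul_sum]
          refine Finset.sum_congr rfl fun i _ => ?_
          by_cases h2 : (i : ℕ) < k
          · rw [if_pos h2, SemilinearAut.smul_single]
            congr 1
            refine 𝔤.fixed h hσ (𝔤.isGen_of_valOpt h (hP i)
              (not_mem_cl_empty_of_algebraicIndependent ht i)) ?_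
            rw [hv]
            exact subset_cl T ⟨i, h2, rfl⟩
          · rw [if_neg h2, smul_zero]
        have hstab : ∀ σ ∈ fixer T, ¬ OnlyConst (D k + pt (𝔤.act σ • P kk)) := by
          intro σ hσ hoc
          apply hbad
          rw [← onlyConst_smul_iff (𝔤.act σ), smul_add, hfix σ hσ, SemilinearAut.smul_single]
          exact hoc
        apply hΩ.orbit T (t kk) (not_mem_cl_of_algebraicIndependent ht kk)
        refine (hfin.image fun v => valAt h v 𝔤.x).subset ?_
        rintro _ ⟨σ, rfl⟩
        refine ⟨𝔤.act σ.1 • P kk, hstab σ.1 σ.2, ?_⟩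
        show valAt h (𝔤.act σ.1 • P kk) 𝔤.x = σ.1 (t kk)
        rw [𝔤.valAt_act_x, hv]
      · intro v
        rw [Finsupp.add_apply, Finsupp.single_apply]
        have := he v
        split_ifs <;> omega
      · rw [map_add, hd, degree_pt h]
        push_cast
        ring
  have hfinal : D n = ∑ i, pt (P i) := by
    rw [hD]
    exact Finset.sum_congr rfl fun i _ => if_pos i.2
  rw [← hfinal]
  exact (key n le_rfl).1

end Fermat.Agent.DIV
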