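import Fermat.Agent.DIV.Geo.Alg

set_option autoImplicit false

/-!
# DIV task DV12-GeoPlaces : generic places

`E = cl T`.  Let `P` be generic over `cl T` (`𝔤.IsGen h T P`), `a = valAt h P x ∉ cl T`, so `a` is transcendental over `cl T` (`transcendental_iff`).
* `IsGen.mono`: `cl_mono`.
* `y_mem`: `mem_of_isAlgebraic` + `𝔤.y_mem_Mx`.
* `root_at`: value of `𝔤.root` (`valAt_aevalAeval`, `valAt_zero`).   `sep_at`: `valAt_ne_zero_of_mem_Mx` + `𝔤.sep_mem_Mx` + `𝔤.sep` + `valAt_aevalAeval`.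
* `eq_of_centre`: `eq_of_same_centre h 𝔤.top 𝔤.Φ 𝔤.root`.
* `valAt_act_x`, `valAt_act_y`: `valAt_smul` with `f = x` (`𝔤.act_x`), `f = y` (`𝔤.act_y`), `𝔤.baseAut_act`;  `isGen_act`: `smul_mem_smul_iff`; `σ` maps `cl T` onto itself if `σ ∈ fixer T`.
* `fixed`: `σ ∈ fixer T`, `P` generic over `cl ∅` with `a ∈ cl T`.  Then `b = valAt h P y ∈ cl T` (`𝔤.mem_cl_of_root`), so `σ a = a`, `σ b = b`, and `act σ • P` has the same centre as `P` (`fixer_mono (Set.empty_subset T)` for `𝔤.act_y`).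
* `claimT`: `exists_aut_conj h P P'` with `E = cl T` gives `ρ : Ω ≃ₐ[cl T] Ω`; `σ := ρ.restrictScalars ℚ ∈ fixer T` (`ρ.commutes`); `act σ • P` and `P'` have the same centre.
-/

namespace Fermat.Agent.DIV

open AlgebraicCurve Fermat.Agent.S24 Polynomial IntermediateField
open scoped Polynomial.Bivariate

variable {Ω F : Type*} [Field Ω] [Algebra ℚ Ω] [Field F] [Algebra Ω F] [IsAlgClosed Ω]
  (𝔤 : Geo Ω F) (h : IsFF1 Ω F)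

theorem Geo.IsGen.mono {T T' : Set Ω} (hT : T ⊆ T') {P : Place Ω F} (hP : 𝔤.IsGen h T' P) :
    𝔤.IsGen h T P :=
  ⟨hP.1, fun hmem => hP.2 (cl_mono hT hmem)⟩

theorem Geo.y_mem {T : Set Ω} {P : Place Ω F} (hP : 𝔤.IsGen h T P) :
    𝔤.y ∈ P.toValuationSubring :=
  mem_of_isAlgebraic h P hP.1 (transcendental_iff.2 hP.2) (𝔤.y_mem_Mx T)

theorem Geo.root_at {T : Set Ω} {P : Place Ω F} (hP : 𝔤.IsGen h T P) :
    𝔤.Φ.evalEval (valAt h P 𝔤.x) (valAt h P 𝔤.y) = 0 := by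
  rw [← valAt_aevalAeval h P hP.1 (𝔤.y_mem h hP), 𝔤.root, valAt_zero]

theorem Geo.sep_at {T : Set Ω} {P : Place Ω F} (hP : 𝔤.IsGen h T P) :
    (derivative 𝔤.Φ).evalEval (valAt h P 𝔤.x) (valAt h P 𝔤.y) ≠ 0 := by
  rw [← valAt_aevalAeval h P hP.1 (𝔤.y_mem h hP)]
  exact valAt_ne_zero_of_mem_Mx h P hP.1 (transcendental_iff.2 hP.2) (𝔤.sep_mem_Mx T) 𝔤.sep

theorem Geo.eq_of_centre {T : Set Ω} {P P' : Place Ω F} (hP : 𝔤.IsGen h T P)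
    (hP' : 𝔤.IsGen h T P') (hx : valAt h P 𝔤.x = valAt h P' 𝔤.x)
    (hy : valAt h P 𝔤.y = valAt h P' 𝔤.y) : P = P' :=
  eq_of_same_centre h 𝔤.top 𝔤.Φ 𝔤.root P P' hP.1 (𝔤.y_mem h hP) hP'.1 (𝔤.y_mem h hP') hx hy
    (𝔤.sep_at h hP)

theorem Geo.valAt_act_x (σ : Ω ≃ₐ[ℚ] Ω) (P : Place Ω F) :
    valAt h (𝔤.act σ • P) 𝔤.x = σ (valAt h P 𝔤.x) := by
  conv_lhs => rw [← 𝔤.act_x σ]
  rw [valAt_smul, 𝔤.baseAut_act]

theorem Geo.valAt_act_y {σ : Ω ≃ₐ[ℚ] Ω} (hσ : σ ∈ fixer (∅ : Set Ω)) (P : Place Ω F) :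
    valAt h (𝔤.act σ • P) 𝔤.y = σ (valAt h P 𝔤.y) := by
  conv_lhs => rw [← 𝔤.act_y σ hσ]
  rw [valAt_smul, 𝔤.baseAut_act]

theorem Geo.x_mem_act_iff (σ : Ω ≃ₐ[ℚ] Ω) (P : Place Ω F) :
    𝔤.x ∈ (𝔤.act σ • P).toValuationSubring ↔ 𝔤.x ∈ P.toValuationSubring := by
  conv_lhs => rw [← 𝔤.act_x σ]
  exact smul_mem_smul_iff P (𝔤.act σ)

theorem Geo.isGen_act {T : Set Ω} {σ : Ω ≃ₐ[ℚ] Ω} (hσ : σ ∈ fixer T) {P : Place Ω F}
    (hP : 𝔤.IsGen h T P) : 𝔤.IsGen h T (𝔤.act σ • P) := by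
  refine ⟨(𝔤.x_mem_act_iff σ P).2 hP.1, ?_⟩
  rw [𝔤.valAt_act_x]
  intro hmem
  apply hP.2
  have h1 := mem_fixer.1 (inv_mem hσ) _ hmem
  have h2 : σ⁻¹ (σ (valAt h P 𝔤.x)) = valAt h P 𝔤.x := σ.symm_apply_apply _
  rw [h2] at h1
  rw [h1]
  exact hmem

/-- the automorphisms fixing `cl T` fix the places over the transcendental elements of `cl T`. -/
theorem Geo.fixed {T : Set Ω} {σ : Ω ≃ₐ[ℚ] Ω} (hσ : σ ∈ fixer T) {P : Place Ω F}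
    (hP : 𝔤.IsGen h ∅ P) (ha : valAt h P 𝔤.x ∈ cl T) : 𝔤.act σ • P = P := by
  have hσ0 : σ ∈ fixer (∅ : Set Ω) := fixer_mono (Set.empty_subset T) hσ
  have hb : valAt h P 𝔤.y ∈ cl T := 𝔤.mem_cl_of_root ha (𝔤.root_at h hP) (𝔤.sep_at h hP)
  refine 𝔤.eq_of_centre h (𝔤.isGen_act h hσ0 hP) hP ?_ ?_
  · rw [𝔤.valAt_act_x, mem_fixer.1 hσ _ ha]
  · rw [𝔤.valAt_act_y h hσ0, mem_fixer.1 hσ _ hb]

/-- the automorphisms fixing `cl T` permute transitively the places which are generic over `cl T`. -/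
theorem Geo.claimT {T : Set Ω} {P P' : Place Ω F} (hP : 𝔤.IsGen h T P) (hP' : 𝔤.IsGen h T P') :
    ∃ σ ∈ fixer T, 𝔤.act σ • P = P' := by
  obtain ⟨ρ, hρ⟩ := exists_aut_conj (E := cl T) h P P' hP.1 hP'.1 (transcendental_iff.2 hP.2)
    (transcendental_iff.2 hP'.2)
  have hσ : ρ.restrictScalars ℚ ∈ fixer T := by
    rw [mem_fixer]
    intro a ha
    exact ρ.commutes ⟨a, ha⟩
  have hσ0 : ρ.restrictScalars ℚ ∈ fixer (∅ : Set Ω) := fixer_mono (Set.empty_subset T) hσ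
  refine ⟨ρ.restrictScalars ℚ, hσ, 𝔤.eq_of_centre h (𝔤.isGen_act h hσ hP) hP' ?_ ?_⟩
  · rw [𝔤.valAt_act_x]
    exact hρ _ (self_mem_Mx _)
  · rw [𝔤.valAt_act_y h hσ0]
    exact hρ _ (𝔤.y_mem_Mx T)

end Fermat.Agent.DIV
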