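import Fermat.Agent.DIV.Geo.Generic

set_option autoImplicit false

/-!
# DIV: the abstract `Setup` attached to a geometric situation, and the divisibility theorem for `Pic⁰ (F)`
-/

namespace Fermat.Agent.DIV

open AlgebraicCurve Fermat.Agent.S24 Polynomial IntermediateField Fermat.Agent.RL

variable {Ω F : Type*} [Field Ω] [Algebra ℚ Ω] [Field F] [Algebra Ω F] [IsAlgClosed Ω]
  [CharZero Ω] (𝔤 : Geo Ω F) (h : IsFF1 Ω F)

/-- the action on places. -/
@[reducible] def Geo.mulActionPlace : MulAction (Ω ≃ₐ[ℚ] Ω) (Place Ω F) :=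
  MulAction.compHom _ 𝔤.act

/-- the action on `Pic⁰`. -/
@[reducible] noncomputable def Geo.distribPic : DistribMulAction (Ω ≃ₐ[ℚ] Ω) (Pic0 Ω F) :=
  DistribMulAction.compHom _ 𝔤.act

theorem Geo.transcendental_x : Transcendental Ω 𝔤.x := by
  apply transcendental_of_not_mem_range
  rintro ⟨a, ha⟩
  have := 𝔤.ord_o
  rw [← ha, ord_algebraMap] at this
  exact lt_irrefl _ this

theorem clsOf_eq_sum (o : Place Ω F) (D : Divisor Ω F) :
    (D.sum fun P n => n • clsOf h o (pt P)) = clsOf h o D := by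
  let φ : Divisor Ω F →+ Pic0 Ω F := AddMonoidHom.mk' (clsOf h o) (clsOf_add h o)
  have h1 : ∀ D, φ D = clsOf h o D := fun _ => rfl
  conv_rhs => rw [← h1, ← Finsupp.sum_single D, map_finsuppSum]
  refine Finsupp.sum_congr fun P _ => ?_
  rw [← h1, ← map_zsmul]
  congr 1
  rw [Finsupp.smul_single, smul_eq_mul, mul_one]

theorem Geo.valOpt_o : valOpt h 𝔤.o 𝔤.x = none := (valOpt_eq_none_iff h 𝔤.o).2 𝔤.ord_o

/-- the abstract setup. -/
noncomputable def Geo.setup (hΩ : Rich Ω) :
    @Setup Ω _ _ (Place Ω F) (Pic0 Ω F) _ 𝔤.mulActionPlace 𝔤.distribPic :=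
  letI := 𝔤.mulActionPlace
  letI := 𝔤.distribPic
  { val := fun P => valOpt h P 𝔤.x
    cls := fun P => clsOf h 𝔤.o (pt P)
    red := fun c => red h 𝔤.o c
    g := genusR h
    val_smul := by
      intro σ P
      show valOpt h (𝔤.act σ • P) 𝔤.x = _
      conv_lhs => rw [← 𝔤.act_x σ]
      rw [valOpt_smul]
      congr 1
      funext a
      exact 𝔤.baseAut_act σ a
    finite_fibre := fun c => finite_valOpt_eq h 𝔤.transcendental_x c
    exists_val := fun t => exists_valOpt_eq h 𝔤.transcendental_x t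
    cls_smul := by
      intro σ P
      show clsOf h 𝔤.o (pt (𝔤.act σ • P)) = 𝔤.act σ • clsOf h 𝔤.o (pt P)
      rw [clsOf_smul h _ (𝔤.act_o σ), SemilinearAut.smul_single]
    red_nonneg := fun c P => (isRed_red h 𝔤.o c).eff P
    sum_red := by
      intro c
      rw [clsOf_eq_sum, clsOf_red]
    card_red := by
      intro c
      have h1 := degree_red_le h 𝔤.o c
      rw [principal_degree_eq_sum h] at h1
      exact h1
    red_smul := by
      intro σ c
      show red h 𝔤.o (𝔤.act σ • c) = _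
      rw [red_smul h _ (𝔤.act_o σ), SemilinearAut.divisor_smul_def]
      rfl
    red_generic := by
      intro P t hP ht
      rw [← clsOf_sum]
      apply red_clsOf
      refine ⟨?_, ?_, 𝔤.onlyConst_sum h hΩ le_rfl P t hP ht⟩
      · intro v
        rw [Finsupp.finsetSum_apply]
        refine Finset.sum_nonneg fun i _ => ?_
        classical
        rw [Finsupp.single_apply]
        split_ifs <;> simp
      · rw [Finsupp.finsetSum_apply]
        refine Finset.sum_eq_zero fun i _ => ?_
        classical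
        rw [Finsupp.single_apply, if_neg]
        intro hi
        have h1 := hP i
        rw [hi, 𝔤.valOpt_o h] at h1
        exact absurd h1 (by simp)
    trans := fun P P' t t' hP hP' ht ht' => 𝔤.trans h P P' t t' hP hP' ht ht' }

/-- **Divisibility of `Pic⁰`**, with control of the support for classes which are fixed by the automorphisms over the algebraic numbers. -/
theorem Geo.divisible (hΩ : Rich Ω) {m : ℕ} (hfin : {c : Pic0 Ω F | m • c = 0}.Finite)
    (a : Pic0 Ω F) (ha : ∀ σ ∈ fixer (∅ : Set Ω), 𝔤.act σ • a = a) :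
    ∃ D : Divisor Ω F, m • clsOf h 𝔤.o D = a ∧
      ∀ P ∈ D.support, ∀ s, valOpt h P 𝔤.x = some s → s ∈ cl (∅ : Set Ω) := by
  letI := 𝔤.mulActionPlace
  letI := 𝔤.distribPic
  obtain ⟨b, hb⟩ := divisible_abstract (𝔤.setup h hΩ) hΩ hfin a
  have h1 : m • b ∈ FinOrb (Pic0 Ω F) (∅ : Set Ω) := by
    rw [hb, mem_FinOrb]
    refine (Set.finite_singleton a).subset ?_
    rintro _ ⟨σ, rfl⟩
    exact ha σ.1 σ.2
  have h2 : b ∈ FinOrb (Pic0 Ω F) (∅ : Set Ω) := saturated hfin h1
  refine ⟨red h 𝔤.o b, by rw [clsOf_red, hb], fun P hP s hs => ?_⟩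
  exact over_of_mem_FinOrb (𝔤.setup h hΩ) hΩ h2 hP s hs

end Fermat.Agent.DIV
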