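import Fermat.Agent.DIV.Geo.Places

set_option autoImplicit false

/-!
# DIV task DV13-Tuple : transitivity on tuples of independent generic places

`P P' : Fin n → Place`, with values `t`, `t'` of `x`, both algebraically independent over `ℚ`.  Then some `σ` maps `P i` to `P' i` for all `i`.

PROOF.  Show by induction on `k ≤ n`: `∃ σ, ∀ i : Fin n, (i : ℕ) < k → act σ • P i = P' i`.   `k = 0`: `σ = 1`.
Step: let `σ` work for `k < n`, `T' = t' '' {i | i < k}` (with `k : Fin n`).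
 * the value of `x` at `Q := act σ • P k` is `σ (t k)` (`𝔤.valAt_act_x`); for `i < k`: `σ (t i) = t' i` (values of `act σ • P i = P' i`).
 * `σ (t k) ∉ cl T'`: otherwise `t k = σ⁻¹ (σ (t k)) ∈ cl (σ⁻¹ '' T') = cl (t '' {i | i < k})` (`map_mem_cl`), contradicting `not_mem_cl_of_algebraicIndependent ht k`.
 * `t' k ∉ cl T'` by `not_mem_cl_of_algebraicIndependent ht' k`.
 * `𝔤.claimT` gives `ρ ∈ fixer T'` with `act ρ • Q = P' k`; `ρ` fixes `P' i`, `i < k` by `𝔤.fixed` (`t' i ∈ cl T'` by `subset_cl`; `t' i ∉ cl ∅`: `isGen_empty_of_algebraicIndependent`).  Take `ρ * σ` (`map_mul`, `mul_smul`).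
`map_mem_cl`: `σ` maps `adjoin ℚ T` into `adjoin ℚ (σ '' T)` (`IntermediateField.adjoin_map`/`adjoin_induction`); transport a polynomial relation: if `p ≠ 0` over `adjoin ℚ T` kills `x`, then the polynomial with coefficients `σ (coeff)` kills `σ x`.
 (A slick way: `(cl (σ '' T)).comap σ`-type intermediate field, or show that `{x | σ x ∈ cl (σ '' T)}` is an intermediate field `L` which contains `T` and is algebraically closed in `Ω`, i.e. use `mem_cl_of_isAlgebraic`.)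
-/

namespace Fermat.Agent.DIV

open AlgebraicCurve Fermat.Agent.S24 Polynomial IntermediateField

variable {Ω F : Type*} [Field Ω] [Algebra ℚ Ω] [Field F] [Algebra Ω F] [IsAlgClosed Ω]
  (𝔤 : Geo Ω F) (h : IsFF1 Ω F)

theorem map_mem_cl (σ : Ω ≃ₐ[ℚ] Ω) {T : Set Ω} {x : Ω} (hx : x ∈ cl T) : σ x ∈ cl (σ '' T) := by
  rw [mem_cl] at hx ⊢
  let f : adjoin ℚ T →+* adjoin ℚ (σ '' T) :=
    ((σ : Ω →+* Ω).comp (algebraMap (adjoin ℚ T) Ω)).codRestrict (adjoin ℚ (σ '' T)).toSubring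
      fun a => by
        have h1 : (adjoin ℚ T).map (σ : Ω →ₐ[ℚ] Ω) = adjoin ℚ (σ '' T) := adjoin_map ℚ T _
        show σ (a : Ω) ∈ adjoin ℚ (σ '' T)
        rw [← h1]
        exact ⟨a, a.2, rfl⟩
  exact IsAlgebraic.ringHom_of_comp_eq f (σ : Ω →+* Ω) hx f.injective (by ext a; rfl)

/-- a member of an algebraically independent family is not algebraic. -/
theorem not_mem_cl_empty_of_algebraicIndependent {ι : Type*} {t : ι → Ω}
    (ht : AlgebraicIndependent ℚ t) (i : ι) : t i ∉ cl (∅ : Set Ω) := by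
  intro hmem
  rw [mem_cl] at hmem
  apply ht.transcendental i
  refine exchange_isAlgebraic_of_range (fun a => ?_) hmem
  obtain ⟨a, ha⟩ := a
  have h1 : a ∈ (⊥ : IntermediateField ℚ Ω) := by
    rw [← adjoin_empty]
    exact ha
  exact mem_bot.1 h1

theorem Geo.isGen_of_valOpt {T : Set Ω} {P : Place Ω F} {s : Ω}
    (hP : valOpt h P 𝔤.x = some s) (hs : s ∉ cl T) : 𝔤.IsGen h T P := by
  obtain ⟨h1, h2⟩ := (valOpt_eq_some_iff h P).1 hP
  exact ⟨h1, by rwa [h2]⟩

theorem Geo.trans {n : ℕ} (P P' : Fin n → Place Ω F) (t t' : Fin n → Ω)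
    (hP : ∀ i, valOpt h (P i) 𝔤.x = some (t i)) (hP' : ∀ i, valOpt h (P' i) 𝔤.x = some (t' i))
    (ht : AlgebraicIndependent ℚ t) (ht' : AlgebraicIndependent ℚ t') :
    ∃ σ : Ω ≃ₐ[ℚ] Ω, ∀ i, 𝔤.act σ • P i = P' i := by
  have hv : ∀ i, valAt h (P i) 𝔤.x = t i := fun i => ((valOpt_eq_some_iff h _).1 (hP i)).2
  have hv' : ∀ i, valAt h (P' i) 𝔤.x = t' i := fun i => ((valOpt_eq_some_iff h _).1 (hP' i)).2
  have key : ∀ k : ℕ, k ≤ n → ∃ σ : Ω ≃ₐ[ℚ] Ω, ∀ i : Fin n, (i : ℕ) < k →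
      𝔤.act σ • P i = P' i := by
    intro k
    induction k with
    | zero => exact fun _ => ⟨1, fun i hi => absurd hi (Nat.not_lt_zero _)⟩
    | succ k ih =>
      intro hk
      obtain ⟨σ, hσ⟩ := ih (by omega)
      set kk : Fin n := ⟨k, by omega⟩ with hkk
      set T' : Set Ω := t' '' {i | i < kk} with hT'
      have hσt : ∀ i : Fin n, i < kk → σ (t i) = t' i := by
        intro i hi
        rw [← hv, ← 𝔤.valAt_act_x h, hσ i hi, hv']
      have hQ : 𝔤.IsGen h T' (𝔤.act σ • P kk) := by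
        refine ⟨(𝔤.x_mem_act_iff σ _).2 ((valOpt_eq_some_iff h _).1 (hP kk)).1, ?_⟩
        rw [𝔤.valAt_act_x, hv]
        intro hmem
        have h1 := map_mem_cl σ⁻¹ hmem
        have h2 : σ⁻¹ (σ (t kk)) = t kk := σ.symm_apply_apply _
        rw [h2] at h1
        apply not_mem_cl_of_algebraicIndependent ht kk
        refine cl_mono ?_ h1
        rintro _ ⟨_, ⟨i, hi, rfl⟩, rfl⟩
        refine ⟨i, hi, ?_⟩
        rw [← hσt i hi]
        exact (σ.symm_apply_apply _).symm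
      have hQ' : 𝔤.IsGen h T' (P' kk) :=
        𝔤.isGen_of_valOpt h (hP' kk) (not_mem_cl_of_algebraicIndependent ht' kk)
      obtain ⟨ρ, hρ, hρQ⟩ := 𝔤.claimT h hQ hQ'
      refine ⟨ρ * σ, fun i hi => ?_⟩
      rw [map_mul, mul_smul]
      rcases Nat.lt_succ_iff_lt_or_eq.1 hi with hlt | heq
      · rw [hσ i hlt]
        refine 𝔤.fixed h hρ (𝔤.isGen_of_valOpt h (hP' i)
          (not_mem_cl_empty_of_algebraicIndependent ht' i)) ?_
        rw [hv']
        exact subset_cl T' ⟨i, hlt, rfl⟩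
      · have : i = kk := Fin.ext heq
        rw [this]
        exact hρQ
  obtain ⟨σ, hσ⟩ := key n le_rfl
  exact ⟨σ, fun i => hσ i i.2⟩

end Fermat.Agent.DIV
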